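/-
Row 37 (S43), block CH (helper170).  Mathlib only.

**Cayley-Hamilton / Boston-Lenstra-Ribet lemma.**
`G` a group, `R` a commutative ring, `π : R → k` a surjection onto a field, `E` an `R`-algebra,
`φ : G →* E` with the Cayley-Hamilton relation `φ g + D g • φ g⁻¹ = T g` (a scalar),
`ρ : G →* M₂(k)` whose image spans `M₂(k)`, `π (T g) = tr ρ g`, `π (D g) = det ρ g`.

Then every element `∑ a_g g` of `R[G]` with `∑ π(a_g) ρ(g) = 0` satisfies
`∑ a_g φ(g) ∈ (ker π) • span_R (φ G)`.

This is the converse direction of `S32.ch_key`.  Consequences: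
* `R = k`: `ρ σ = 1 → φ σ = 1` (no semisimplicity, no Brauer-Nesbitt);
* `R` local: `φ σ - 1 = ∑ t_i φ(g_i)` with `t_i` in the maximal ideal.
-/
import Mathlib

set_option autoImplicit false

namespace Fermat.Agent.S43.CH

open Matrix

variable {G R E k : Type*} [Group G] [CommRing R] [Ring E] [Algebra R E] [Field k]

/-- the image of the group algebra `R[G]` in `E × E × M₂(k)` under
`x ↦ (φ x, φ (x^*), ρ x)`, `g^* = D g • g⁻¹`. -/
inductive Rel (π : R →+* k) (φ : G →* E) (D : G → R) (ρ : G →* Matrix (Fin 2) (Fin 2) k) :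
    E → E → Matrix (Fin 2) (Fin 2) k → Prop
  | base (g : G) : Rel π φ D ρ (φ g) (D g • φ g⁻¹) (ρ g)
  | zero : Rel π φ D ρ 0 0 0
  | add {x x' y y' : E} {X Y : Matrix (Fin 2) (Fin 2) k} :
      Rel π φ D ρ x x' X → Rel π φ D ρ y y' Y → Rel π φ D ρ (x + y) (x' + y') (X + Y)
  | smul (r : R) {x x' : E} {X : Matrix (Fin 2) (Fin 2) k} :
      Rel π φ D ρ x x' X → Rel π φ D ρ (r • x) (r • x') (π r • X)

section

variable {π : R →+* k} {φ : G →* E} {D : G → R} {ρ : G →* Matrix (Fin 2) (Fin 2) k}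

/-- the `R`-span of the image of `G`. -/
abbrev spn (R : Type*) {G E : Type*} [Group G] [CommRing R] [Ring E] [Algebra R E] (φ : G →* E) :
    Submodule R E := Submodule.span R (Set.range φ)

theorem one_mem_spn : (1 : E) ∈ spn R φ := Submodule.subset_span ⟨1, map_one φ⟩

theorem mul_mem_spn {x y : E} (hx : x ∈ spn R φ) (hy : y ∈ spn R φ) : x * y ∈ spn R φ := by
  induction hx using Submodule.span_induction with
  | mem x hx =>
    obtain ⟨g, rfl⟩ := hx
    induction hy using Submodule.span_induction with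
    | mem y hy =>
      obtain ⟨h, rfl⟩ := hy
      exact Submodule.subset_span ⟨g * h, map_mul φ g h⟩
    | zero => rw [mul_zero]; exact Submodule.zero_mem _
    | add a b _ _ ha hb => rw [mul_add]; exact Submodule.add_mem _ ha hb
    | smul c a _ ha => rw [mul_smul_comm]; exact Submodule.smul_mem _ c ha
  | zero => rw [zero_mul]; exact Submodule.zero_mem _
  | add a b _ _ ha hb => rw [add_mul]; exact Submodule.add_mem _ ha hb
  | smul c a _ ha => rw [smul_mul_assoc]; exact Submodule.smul_mem _ c ha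

/-- `J = (ker π) • span (φ G)`. -/
abbrev JJ (π : R →+* k) (φ : G →* E) : Submodule R E := RingHom.ker π • spn R φ

theorem JJ_mul_right {j s : E} (hj : j ∈ JJ π φ) (hs : s ∈ spn R φ) : j * s ∈ JJ π φ := by
  induction hj using Submodule.smul_induction_on' with
  | smul r hr n hn =>
    rw [smul_mul_assoc]
    exact Submodule.smul_mem_smul hr (mul_mem_spn hn hs)
  | add a _ b _ ha hb => rw [add_mul]; exact Submodule.add_mem _ ha hb

theorem JJ_mul_left {j s : E} (hj : j ∈ JJ π φ) (hs : s ∈ spn R φ) : s * j ∈ JJ π φ := by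
  induction hj using Submodule.smul_induction_on' with
  | smul r hr n hn =>
    rw [mul_smul_comm]
    exact Submodule.smul_mem_smul hr (mul_mem_spn hs hn)
  | add a _ b _ ha hb => rw [mul_add]; exact Submodule.add_mem _ ha hb

theorem smul_mem_JJ {t : R} (ht : π t = 0) {s : E} (hs : s ∈ spn R φ) : t • s ∈ JJ π φ :=
  Submodule.smul_mem_smul ht hs

theorem Rel.mem_left {x x' : E} {X : Matrix (Fin 2) (Fin 2) k} (h : Rel π φ D ρ x x' X) :
    x ∈ spn R φ := by
  induction h with
  | base g => exact Submodule.subset_span ⟨g, rfl⟩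
  | zero => exact Submodule.zero_mem _
  | add _ _ h1 h2 => exact Submodule.add_mem _ h1 h2
  | smul r _ h1 => exact Submodule.smul_mem _ r h1

theorem Rel.mem_right {x x' : E} {X : Matrix (Fin 2) (Fin 2) k} (h : Rel π φ D ρ x x' X) :
    x' ∈ spn R φ := by
  induction h with
  | base g => exact Submodule.smul_mem _ _ (Submodule.subset_span ⟨g⁻¹, rfl⟩)
  | zero => exact Submodule.zero_mem _
  | add _ _ h1 h2 => exact Submodule.add_mem _ h1 h2
  | smul r _ h1 => exact Submodule.smul_mem _ r h1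

/-- (F1) `x + x^*` is the scalar `T x`. -/
theorem Rel.trace {T : G → R} (hCH : ∀ g, φ g + D g • φ g⁻¹ = algebraMap R E (T g))
    (hT : ∀ g, π (T g) = (ρ g).trace)
    {x x' : E} {X : Matrix (Fin 2) (Fin 2) k} (h : Rel π φ D ρ x x' X) :
    ∃ t : R, x + x' = algebraMap R E t ∧ π t = X.trace := by
  induction h with
  | base g => exact ⟨T g, hCH g, hT g⟩
  | zero => exact ⟨0, by simp, by simp⟩
  | add _ _ h1 h2 =>
    obtain ⟨t1, e1, f1⟩ := h1
    obtain ⟨t2, e2, f2⟩ := h2
    refine ⟨t1 + t2, ?_, ?_⟩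
    · rw [map_add, ← e1, ← e2]; abel
    · rw [map_add, f1, f2, Matrix.trace_add]
  | smul r _ h1 =>
    obtain ⟨t1, e1, f1⟩ := h1
    refine ⟨r * t1, ?_, ?_⟩
    · rw [← smul_add, e1, Algebra.smul_def, map_mul]
    · rw [map_mul, f1, Matrix.trace_smul, smul_eq_mul]

/-- (F2) multiplicativity. -/
theorem Rel.mul (hD : ∀ g h, algebraMap R E (D (g * h)) = algebraMap R E (D g * D h))
    {x x' y y' : E} {X Y : Matrix (Fin 2) (Fin 2) k}
    (hx : Rel π φ D ρ x x' X) (hy : Rel π φ D ρ y y' Y) :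
    Rel π φ D ρ (x * y) (y' * x') (X * Y) := by
  induction hx with
  | base g =>
    induction hy with
    | base h =>
      have := Rel.base (π := π) (φ := φ) (D := D) (ρ := ρ) (g * h)
      rw [map_mul, map_mul, _root_.mul_inv_rev, map_mul, Algebra.smul_def, hD,
        ← Algebra.smul_def] at this
      convert this using 1
      rw [smul_mul_smul_comm, mul_comm (D h)]
    | zero => simpa using Rel.zero
    | add _ _ h1 h2 =>
      rw [mul_add, add_mul, mul_add]
      exact Rel.add h1 h2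
    | smul r _ h1 =>
      rw [mul_smul_comm, smul_mul_assoc, Matrix.mul_smul]
      exact Rel.smul r h1
  | zero => simpa using Rel.zero
  | add _ _ h1 h2 =>
    rw [add_mul, mul_add, add_mul]
    exact Rel.add h1 h2
  | smul r _ h1 =>
    rw [smul_mul_assoc, mul_smul_comm, Matrix.smul_mul]
    exact Rel.smul r h1

/-- (F3) the involution. -/
theorem Rel.symm (hD : ∀ g h, algebraMap R E (D (g * h)) = algebraMap R E (D g * D h))
    (hD1 : algebraMap R E (D 1) = 1) (hdet : ∀ g, π (D g) = (ρ g).det)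
    {x x' : E} {X : Matrix (Fin 2) (Fin 2) k} (hx : Rel π φ D ρ x x' X) :
    Rel π φ D ρ x' x X.adjugate := by
  induction hx with
  | base g =>
    have := Rel.smul (D g) (Rel.base (π := π) (φ := φ) (D := D) (ρ := ρ) g⁻¹)
    rw [inv_inv] at this
    convert this using 1
    · rw [smul_smul, Algebra.smul_def, ← hD, mul_inv_cancel, hD1, one_mul]
    · have h1 : ρ g * ρ g⁻¹ = 1 := by rw [← map_mul, mul_inv_cancel, map_one]
      have h2 : (ρ g).adjugate * (ρ g * ρ g⁻¹) = (ρ g).det • ρ g⁻¹ := by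
        rw [← mul_assoc, Matrix.adjugate_mul, Matrix.smul_mul, one_mul]
      rw [hdet, ← h2, h1, mul_one]
  | zero =>
    have : (0 : Matrix (Fin 2) (Fin 2) k).adjugate = 0 := by
      rw [Matrix.adjugate_fin_two]; ext i j; fin_cases i <;> fin_cases j <;> simp
    rw [this]; exact Rel.zero
  | add _ _ h1 h2 =>
    rename_i X Y _ _
    have : (X + Y).adjugate = X.adjugate + Y.adjugate := by
      rw [Matrix.adjugate_fin_two, Matrix.adjugate_fin_two, Matrix.adjugate_fin_two]
      ext i j; fin_cases i <;> fin_cases j <;> simp [add_comm]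
    rw [this]; exact Rel.add h1 h2
  | smul r _ h1 =>
    rename_i X _
    have : (π r • X).adjugate = π r • X.adjugate := by
      rw [Matrix.adjugate_fin_two, Matrix.adjugate_fin_two]
      ext i j; fin_cases i <;> fin_cases j <;> simp
    rw [this]; exact Rel.smul r h1

end

/-- The hypotheses of the lemma. -/
structure Hyp (π : R →+* k) (φ : G →* E) (D T : G → R) (ρ : G →* Matrix (Fin 2) (Fin 2) k) :
    Prop where
  /-- Cayley-Hamilton -/
  ch : ∀ g, φ g + D g • φ g⁻¹ = algebraMap R E (T g)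
  D_mul : ∀ g h, algebraMap R E (D (g * h)) = algebraMap R E (D g * D h)
  D_one : algebraMap R E (D 1) = 1
  tr : ∀ g, π (T g) = (ρ g).trace
  det : ∀ g, π (D g) = (ρ g).det

section Main

variable {π : R →+* k} {φ : G →* E} {D T : G → R} {ρ : G →* Matrix (Fin 2) (Fin 2) k}

/-- (P) the polarised Cayley-Hamilton identity for an element of the kernel of `ρ`. -/
theorem Hyp.polar (H : Hyp π φ D T ρ) {x x' y y' : E} {Y : Matrix (Fin 2) (Fin 2) k}
    (hx : Rel π φ D ρ x x' 0) (hy : Rel π φ D ρ y y' Y) :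
    ∃ t : R, π t = Y.trace ∧ x * y + y * x - t • x ∈ JJ π φ := by
  obtain ⟨t0, e0, f0⟩ := hx.trace H.ch H.tr
  obtain ⟨t1, e1, f1⟩ := (hx.mul H.D_mul hy).trace H.ch H.tr
  obtain ⟨t, e, f⟩ := hy.trace H.ch H.tr
  rw [Matrix.trace_zero] at f0
  rw [zero_mul, Matrix.trace_zero] at f1
  have h0 : x + x' ∈ JJ π φ := by
    rw [e0, Algebra.algebraMap_eq_smul_one]
    exact smul_mem_JJ f0 one_mem_spn
  have h1 : x * y + y' * x' ∈ JJ π φ := by
    rw [e1, Algebra.algebraMap_eq_smul_one]
    exact smul_mem_JJ f1 one_mem_spn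
  refine ⟨t, f, ?_⟩
  have key : x * y + y * x - t • x = (x * y + y' * x') - y' * (x + x') := by
    rw [Algebra.smul_def, ← e]
    noncomm_ring
  rw [key]
  exact Submodule.sub_mem _ h1 (JJ_mul_left h0 hy.mem_right)

/-- anticommutation with traceless elements. -/
theorem Hyp.anti (H : Hyp π φ D T ρ) {x x' y y' : E} {Y : Matrix (Fin 2) (Fin 2) k}
    (hx : Rel π φ D ρ x x' 0) (hy : Rel π φ D ρ y y' Y) (hY : Y.trace = 0) :
    x * y + y * x ∈ JJ π φ := by
  obtain ⟨t, f, h⟩ := H.polar hx hy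
  have := Submodule.add_mem _ h (smul_mem_JJ (f.trans hY) hx.mem_left)
  rwa [sub_add_cancel] at this

/-- (Q) -/
theorem Hyp.two_mul (H : Hyp π φ D T ρ) {x x' y y' z z' : E} {Y Z : Matrix (Fin 2) (Fin 2) k}
    (hx : Rel π φ D ρ x x' 0) (hy : Rel π φ D ρ y y' Y) (hz : Rel π φ D ρ z z' Z)
    (hY : Y.trace = 0) (hZ : Z.trace = 0) (hYZ : (Y * Z).trace = 1) :
    x * (y * z) + x * (y * z) - x ∈ JJ π φ := by
  have a1 := JJ_mul_right (H.anti hx hy hY) hz.mem_left
  have a2 := JJ_mul_left (H.anti hx hz hZ) hy.mem_left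
  obtain ⟨t, f, a3⟩ := H.polar hx (hy.mul H.D_mul hz)
  have a4 : (t - 1) • x ∈ JJ π φ :=
    smul_mem_JJ (by rw [map_sub, f, hYZ, map_one, sub_self]) hx.mem_left
  have key : x * (y * z) + x * (y * z) - x
      = (x * (y * z) + y * z * x - t • x) + (t - 1) • x + ((x * y + y * x) * z
        - y * (x * z + z * x)) := by
    rw [sub_smul, one_smul]
    noncomm_ring
  rw [key]
  exact Submodule.add_mem _ (Submodule.add_mem _ a3 a4) (Submodule.sub_mem _ a1 a2)

/-- every matrix is hit. -/
theorem exists_rel (hπ : Function.Surjective π)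
    (hspan : Submodule.span k (Set.range ρ) = ⊤) (X : Matrix (Fin 2) (Fin 2) k) :
    ∃ x x' : E, Rel π φ D ρ x x' X := by
  have hX : X ∈ Submodule.span k (Set.range ρ) := by rw [hspan]; trivial
  induction hX using Submodule.span_induction with
  | mem X hX => obtain ⟨g, rfl⟩ := hX; exact ⟨_, _, Rel.base g⟩
  | zero => exact ⟨_, _, Rel.zero⟩
  | add A B _ _ hA hB =>
    obtain ⟨a, a', ha⟩ := hA
    obtain ⟨b, b', hb⟩ := hB
    exact ⟨_, _, ha.add hb⟩
  | smul c A _ hA =>
    obtain ⟨a, a', ha⟩ := hA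
    obtain ⟨r, rfl⟩ := hπ c
    exact ⟨_, _, ha.smul r⟩

/-- **The lemma**, in terms of `Rel`. -/
theorem Hyp.mem_JJ (H : Hyp π φ D T ρ) (hπ : Function.Surjective π)
    (hspan : Submodule.span k (Set.range ρ) = ⊤) {x x' : E} (hx : Rel π φ D ρ x x' 0) :
    x ∈ JJ π φ := by
  obtain ⟨y, y', hy⟩ := exists_rel (φ := φ) (D := D) hπ hspan (Matrix.single 0 1 1)
  obtain ⟨z, z', hz⟩ := exists_rel (φ := φ) (D := D) hπ hspan (Matrix.single 1 0 1)
  have hY : (Matrix.single 0 1 1 : Matrix (Fin 2) (Fin 2) k).trace = 0 := by simp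
  have hZ : (Matrix.single 1 0 1 : Matrix (Fin 2) (Fin 2) k).trace = 0 := by simp
  have hYZ : ((Matrix.single 0 1 1 : Matrix (Fin 2) (Fin 2) k) * Matrix.single 1 0 1).trace = 1 := by
    simp
  have Q : ∀ {x x' : E}, Rel π φ D ρ x x' 0 → x * (y * z) + x * (y * z) - x ∈ JJ π φ :=
    fun hx => H.two_mul hx hy hz hY hZ hYZ
  have he := hy.mul H.D_mul hz
  set e := y * z with he_def
  set e' := z' * y' with he'_def
  by_cases h2 : (2 : k) = 0
  · -- residue characteristic two
    have h2' : π 2 = 0 := by rw [map_ofNat]; exact h2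
    have h3 : x * e + x * e ∈ JJ π φ := by
      rw [← two_smul R]
      exact smul_mem_JJ h2' (mul_mem_spn hx.mem_left he.mem_left)
    have := Submodule.sub_mem _ h3 (Q hx)
    rwa [sub_sub_cancel] at this
  · obtain ⟨c, hc⟩ := hπ (2⁻¹ : k)
    -- `w = e e^*` is congruent to zero
    have hw := he.mul H.D_mul (he.symm H.D_mul H.D_one H.det)
    have hdet : (Matrix.single 0 1 1 * Matrix.single 1 0 1 : Matrix (Fin 2) (Fin 2) k)
        * (Matrix.single 0 1 1 * Matrix.single 1 0 1 : Matrix (Fin 2) (Fin 2) k).adjugate = 0 := by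
      rw [Matrix.mul_adjugate]
      simp [Matrix.det_fin_two]
    rw [hdet] at hw
    obtain ⟨t, e1, f1⟩ := hw.trace H.ch H.tr
    rw [Matrix.trace_zero] at f1
    have hw2 : e * e' + e * e' ∈ JJ π φ := by
      rw [e1, Algebra.algebraMap_eq_smul_one]
      exact smul_mem_JJ f1 one_mem_spn
    have hw1 : e * e' ∈ JJ π φ := by
      have h3 : (2 * c - 1) • (e * e') ∈ JJ π φ :=
        smul_mem_JJ (by rw [map_sub, map_mul, hc, map_ofNat, map_one, mul_inv_cancel₀ h2, sub_self])
          hw.mem_left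
      have h4 := Submodule.sub_mem _ (Submodule.smul_mem _ c hw2) h3
      have h5 : c • (e * e' + e * e') - (2 * c - 1) • (e * e') = e * e' := by
        rw [sub_smul, one_smul, mul_smul, two_smul, smul_add]
        abel
      rwa [h5] at h4
    -- `e` is idempotent modulo `J`
    obtain ⟨te, e2, f2⟩ := he.trace H.ch H.tr
    rw [hYZ] at f2
    have hee : e * e - e ∈ JJ π φ := by
      have h3 : (te - 1) • e ∈ JJ π φ :=
        smul_mem_JJ (by rw [map_sub, f2, map_one, sub_self]) he.mem_left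
      have h4 : e * e - e = (te - 1) • e - e * e' := by
        have : e' = algebraMap R E te - e := by rw [← e2]; abel
        rw [this, sub_smul, one_smul, Algebra.smul_def, mul_sub, ← Algebra.commutes]
        abel
      rw [h4]
      exact Submodule.sub_mem _ h3 hw1
    -- apply (Q) to `x e`
    have hxe := hx.mul H.D_mul he
    rw [zero_mul] at hxe
    have h6 := Q hxe
    have h7 : x * e ∈ JJ π φ := by
      have h8 := JJ_mul_left hee hx.mem_left
      have h9 : x * e = (x * e * e + x * e * e - x * e) - (x * (e * e - e) + x * (e * e - e)) := by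
        noncomm_ring
      rw [h9]
      exact Submodule.sub_mem _ h6 (Submodule.add_mem _ h8 h8)
    have := Submodule.sub_mem _ (Submodule.add_mem _ h7 h7) (Q hx)
    rwa [sub_sub_cancel] at this

/-- the element of `Rel` attached to an element of the group algebra. -/
theorem rel_sum (a : G →₀ R) :
    Rel π φ D ρ (a.sum fun g r => r • φ g) (a.sum fun g r => r • D g • φ g⁻¹)
      (a.sum fun g r => π r • ρ g) := by
  classical
  simp only [Finsupp.sum]
  induction a.support using Finset.induction_on with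
  | empty => simpa using Rel.zero
  | insert g s hg ih =>
    rw [Finset.sum_insert hg, Finset.sum_insert hg, Finset.sum_insert hg]
    exact ((Rel.base g).smul (a g)).add ih

/-- **The lemma**: an element of `R[G]` killed by `ρ` acts through `(ker π) • R[G]`. -/
theorem Hyp.sum_eq (H : Hyp π φ D T ρ) (hπ : Function.Surjective π)
    (hspan : Submodule.span k (Set.range ρ) = ⊤) (a : G →₀ R)
    (ha : (a.sum fun g r => π r • ρ g) = 0) :
    ∃ b : G →₀ R, (∀ g, π (b g) = 0) ∧
      (a.sum fun g r => r • φ g) = b.sum fun g r => r • φ g := by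
  have h := rel_sum (π := π) (φ := φ) (D := D) (ρ := ρ) a
  rw [ha] at h
  obtain ⟨b, hb, e⟩ := (Submodule.mem_ideal_smul_span_iff_exists_sum _ _ _).mp (H.mem_JJ hπ hspan h)
  exact ⟨b, hb, e.symm⟩

/-- `ρ σ = 1` implies `φ σ - 1 ∈ (ker π) • R[G]`. -/
theorem Hyp.sub_one_eq (H : Hyp π φ D T ρ) (hπ : Function.Surjective π)
    (hspan : Submodule.span k (Set.range ρ) = ⊤) (σ : G) (hσ : ρ σ = 1) :
    ∃ b : G →₀ R, (∀ g, π (b g) = 0) ∧ φ σ - 1 = b.sum fun g r => r • φ g := by
  have h := (Rel.base (π := π) (φ := φ) (D := D) (ρ := ρ) σ).add ((Rel.base 1).smul (-1))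
  have h0 : ρ σ + π (-1) • ρ 1 = 0 := by
    rw [hσ, map_one, map_neg, map_one, neg_smul, one_smul, add_neg_cancel]
  rw [h0] at h
  obtain ⟨b, hb, e⟩ := (Submodule.mem_ideal_smul_span_iff_exists_sum _ _ _).mp (H.mem_JJ hπ hspan h)
  refine ⟨b, hb, ?_⟩
  rw [e, map_one, neg_smul, one_smul, sub_eq_add_neg]

/-- the case of a field (`π` bijective): Boston-Lenstra-Ribet. -/
theorem Hyp.eq_one (H : Hyp π φ D T ρ) (hπ : Function.Bijective π)
    (hspan : Submodule.span k (Set.range ρ) = ⊤) (σ : G) (hσ : ρ σ = 1) : φ σ = 1 := by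
  obtain ⟨b, hb, e⟩ := H.sub_one_eq hπ.2 hspan σ hσ
  have hb0 : b = 0 := by
    ext g
    exact hπ.1 ((hb g).trans (map_zero π).symm)
  rw [hb0, Finsupp.sum_zero_index] at e
  exact sub_eq_zero.mp e

/-- Cayley-Hamilton in the usual form gives `Hyp.ch`. -/
theorem ch_of_sq (g : G) (t d : R) (h : φ g * φ g - t • φ g + d • 1 = 0) :
    φ g + d • φ g⁻¹ = algebraMap R E t := by
  have h1 : φ g * φ g⁻¹ = 1 := by rw [← map_mul, mul_inv_cancel, map_one]
  have h2 : (φ g * φ g - t • φ g + d • 1) * φ g⁻¹ = φ g - t • 1 + d • φ g⁻¹ := by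
    rw [add_mul, sub_mul, mul_assoc, h1, mul_one, smul_mul_assoc, h1, smul_mul_assoc, one_mul]
  rw [h, zero_mul] at h2
  rw [Algebra.algebraMap_eq_smul_one]
  have : φ g + d • φ g⁻¹ - t • 1 = 0 := by rw [h2]; abel
  exact sub_eq_zero.mp this

end Main

section Module

variable {L : Type*} [AddCommGroup L] [Module R L]

/-- Module form of the hypotheses. -/
theorem Hyp.of_module {π : R →+* k} (ρL : G →* Module.End R L) {D T : G → R}
    {ρ : G →* Matrix (Fin 2) (Fin 2) k}
    (hCH : ∀ g v, ρL g v + D g • ρL g⁻¹ v = T g • v)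
    (hD : ∀ (g h : G) (v : L), D (g * h) • v = D g • D h • v) (hD1 : ∀ v : L, D 1 • v = v)
    (htr : ∀ g, π (T g) = (ρ g).trace) (hdet : ∀ g, π (D g) = (ρ g).det) :
    Hyp π ρL D T ρ where
  ch g := by
    ext v
    simpa using hCH g v
  D_mul g h := by
    ext v
    simpa [mul_smul, smul_comm (D h) (D g)] using hD g h v
  D_one := by
    ext v
    simpa using hD1 v
  tr := htr
  det := hdet

/-- **Module form, general `R`**: `σ - 1 = ∑ t_i ρL(g_i)` with `π (t_i) = 0`. -/
theorem sub_one_module {π : R →+* k} (hπ : Function.Surjective π) (ρL : G →* Module.End R L)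
    {D T : G → R} {ρ : G →* Matrix (Fin 2) (Fin 2) k}
    (hCH : ∀ g v, ρL g v + D g • ρL g⁻¹ v = T g • v)
    (hD : ∀ (g h : G) (v : L), D (g * h) • v = D g • D h • v) (hD1 : ∀ v : L, D 1 • v = v)
    (htr : ∀ g, π (T g) = (ρ g).trace) (hdet : ∀ g, π (D g) = (ρ g).det)
    (hspan : Submodule.span k (Set.range ρ) = ⊤) (σ : G) (hσ : ρ σ = 1) :
    ∃ (s : Finset G) (t : G → R), (∀ i ∈ s, π (t i) = 0) ∧
      ∀ v, ρL σ v - v = ∑ i ∈ s, t i • ρL i v := by
  obtain ⟨b, hb, e⟩ := (Hyp.of_module ρL hCH hD hD1 htr hdet).sub_one_eq hπ hspan σ hσ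
  refine ⟨b.support, b, fun i _ => hb i, fun v => ?_⟩
  have := DFunLike.congr_fun e v
  simpa [Finsupp.sum, LinearMap.sum_apply] using this

/-- for a local ring the kernel of a surjection onto a field is the maximal ideal. -/
theorem mem_maximalIdeal_of_map_eq_zero [IsLocalRing R] {π : R →+* k}
    (hπ : Function.Surjective π) {t : R} (ht : π t = 0) : t ∈ IsLocalRing.maximalIdeal R := by
  have := IsLocalRing.eq_maximalIdeal (RingHom.ker_isMaximal_of_surjective π hπ)
  rw [← this]
  exact ht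

end Module

section Field

variable {W : Type*} [AddCommGroup W] [Module k W]

/-- **Field form (BLR)**: `V` a `G`-stable subspace of a `k`-linear representation `W` on which every
`g` satisfies the characteristic polynomial of `ρ g`, `ρ` spanning `M₂(k)`.  Then every `σ` in the
kernel of `ρ` acts trivially on `V`. -/
theorem fixed_of_ch (ρW : G →* Module.End k W) (V : Submodule k W)
    (hV : ∀ g, ∀ x ∈ V, ρW g x ∈ V) (ρ : G →* Matrix (Fin 2) (Fin 2) k)
    (hspan : Submodule.span k (Set.range ρ) = ⊤)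
    (hCH : ∀ g, ∀ x ∈ V, ρW g x + (ρ g).det • ρW g⁻¹ x = (ρ g).trace • x)
    (σ : G) (hσ : ρ σ = 1) : ∀ x ∈ V, ρW σ x = x := by
  let φ : G →* Module.End k V :=
    { toFun := fun g => (ρW g).restrict (hV g)
      map_one' := by
        ext x
        simp
      map_mul' := by
        intro g h
        ext x
        simp }
  have hφ : ∀ g (x : V), ((φ g x : V) : W) = ρW g x := fun _ _ => rfl
  have H : Hyp (RingHom.id k) φ (fun g => (ρ g).det) (fun g => (ρ g).trace) ρ :=
    Hyp.of_module φ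
      (by
        intro g v
        apply Subtype.ext
        simpa [hφ] using hCH g v v.2)
      (by
        intro g h v
        rw [map_mul, Matrix.det_mul, mul_smul])
      (by
        intro v
        rw [map_one, Matrix.det_one, one_smul])
      (fun _ => rfl) (fun _ => rfl)
  have h1 := H.eq_one Function.bijective_id hspan σ hσ
  intro x hx
  have := DFunLike.congr_fun h1 ⟨x, hx⟩
  exact congrArg Subtype.val this

end Field

end Fermat.Agent.S43.CH
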