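/-
Row 37 (S43), block CH (helper170).  Mathlib only.

`CoreMod.coreMod` (helper41) with its hypotheses `H5`, `ht`, `hga` replaced by the Cayley-Hamilton
hypotheses of `CH/Basic.lean`:  the operators `a i` are the `ρL (g_i)`.
-/
import Fermat.Agent.S43.CoreMod
import Fermat.Agent.S43.CH.Basic

set_option autoImplicit false

namespace Fermat.Agent.S43.CH

variable {G R L k : Type*} [Group G] [CommRing R] [Field k] [AddCommGroup L] [Module R L]

/-- **Core of row 37, module form, with Cayley-Hamilton.**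
`N = ρL σ - 1`; `g` commutes modulo `P` with the scalars and with `G`. -/
theorem coreMod_ch [IsLocalRing R] [Module.Finite R L] (P : ℕ) (hP : ∀ v : L, P • v = 0 → v = 0)
    (kap : R) (hkap : IsUnit kap) (ρL : G →* Module.End R L) (σ : G) (A : L →ₗ[R] L)
    (H1 : LinearMap.ker (ρL σ - 1) = LinearMap.range (ρL σ - 1))
    (H2 : ∀ v, ρL σ (A v) = A v)
    (H3 : ∀ v, A (ρL σ v - v) = P • (kap • (ρL σ v - v)))
    (g : L →+ L)
    (H4 : ∀ v, ∃ w, A v - g (ρL σ v - v) = P • w)
    (hgR : ∀ (t : R) (v : L), ∃ w, g (t • v) - t • g v = P • w)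
    (hgG : ∀ (h : G) (v : L), ∃ w, g (ρL h v) - ρL h (g v) = P • w)
    {π : R →+* k} (hπ : Function.Surjective π) {D T : G → R}
    {ρ : G →* Matrix (Fin 2) (Fin 2) k}
    (hCH : ∀ g v, ρL g v + D g • ρL g⁻¹ v = T g • v)
    (hD : ∀ (g h : G) (v : L), D (g * h) • v = D g • D h • v) (hD1 : ∀ v : L, D 1 • v = v)
    (htr : ∀ g, π (T g) = (ρ g).trace) (hdet : ∀ g, π (D g) = (ρ g).det)
    (hspan : Submodule.span k (Set.range ρ) = ⊤) (hσ : ρ σ = 1) :
    Subsingleton L := by
  obtain ⟨s, t, ht, H5⟩ := sub_one_module hπ ρL hCH hD hD1 htr hdet hspan σ hσ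
  refine coreMod P hP kap hkap (ρL σ - 1) A H1 ?_ ?_ g ?_ hgR s t
    (fun i => (ρL i).toAddMonoidHom) (fun i hi => mem_maximalIdeal_of_map_eq_zero hπ (ht i hi))
    ?_ ?_
  · intro v
    rw [LinearMap.sub_apply, Module.End.one_apply, H2, sub_self]
  · intro v
    simpa using H3 v
  · intro v
    simpa using H4 v
  · intro v
    simpa using H5 v
  · intro i _ v
    exact hgG i v

end Fermat.Agent.S43.CH
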